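/-
S18lib / V / GaussU / Decomp  (helper7)

**(U), core**: the decomposition `f = c · a / b` (`c ∈ Q̄ˣ`, `a, b` integral modular functions with
nonzero reduction) for every nonzero `f ∈ FBar N`, `ℓ ∤ N`, WITHOUT the reduction inputs `h`:
it follows from the frame monomials `θ_i` (independent over `k[j̄]`, hence over `Q̄[j]` by Gauss
normalisation, hence `f · q(j) = Σ p_i(j) θ_i`) by scaling the finitely many coefficients.
-/
import Fermat.Agent.S18lib.V.Frame
import Fermat.Agent.S18lib.V.GaussU.Norm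

set_option autoImplicit false
set_option linter.unusedSectionVars false

noncomputable section

namespace Fermat.Agent.S18lib.V

open ModularCurve Fermat.Agent.S28lib Polynomial AlgebraicCurve

/-! ### Independence over `k[j̄]` of the reductions implies independence over `L[j]` -/

section General

variable {L : Type*} [Field L] (A : ValuationSubring L)

theorem coeffMap_subtype_injective :
    Function.Injective (coeffMap A.subtype : LaurentSeries A → LaurentSeries L) := by
  intro x y hxy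
  ext n
  have := congrArg (fun z => z.coeff n) hxy
  simp only [coeffMap_coeff] at this
  exact congrArg Subtype.val (Subtype.ext this)

theorem poly_independent_of_residue {n : ℕ} (jA : LaurentSeries A) (t : Fin n → LaurentSeries A)
    (hind : ∀ P : Fin n → (IsLocalRing.ResidueField A)[X],
      ∑ i, evalJ _ (coeffMap (IsLocalRing.residue A) jA) (P i) *
        coeffMap (IsLocalRing.residue A) (t i) = 0 → ∀ i, P i = 0) :
    ∀ p : Fin n → L[X],
      ∑ i, evalJ L (coeffMap A.subtype jA) (p i) * coeffMap A.subtype (t i) = 0 →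
        ∀ i, p i = 0 := by
  intro p hp
  by_contra hne
  push Not at hne
  obtain ⟨c, P, hc, hP, i0, hi0⟩ := exists_normalize_poly A p hne
  set S : LaurentSeries A := ∑ i, evalJ A jA (P i) * t i with hS
  have h1 : coeffMap A.subtype S = 0 := by
    have hsum : ∑ i, evalJ L (coeffMap A.subtype jA) (p i) * coeffMap A.subtype (t i) =
        evalJ L (coeffMap A.subtype jA) (C c) * coeffMap A.subtype S := by
      rw [hS, map_sum, Finset.mul_sum]
      refine Finset.sum_congr rfl fun i _ => ?_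
      rw [map_mul, coeffMap_evalJ, hP i, map_mul]
      ring
    rw [hsum] at hp
    have hC : evalJ L (coeffMap A.subtype jA) (C c) ≠ 0 := by
      have : evalJ L (coeffMap A.subtype jA) (C c) = algebraMap L (LaurentSeries L) c := by
        simp [evalJ]
      rw [this, Ne, map_eq_zero_iff _ (algebraMap L (LaurentSeries L)).injective]
      exact hc
    exact (mul_eq_zero.mp hp).resolve_left hC
  have h2 : S = 0 := coeffMap_subtype_injective A (by rw [h1, map_zero])
  have h3 : coeffMap (IsLocalRing.residue A) S = 0 := by rw [h2, map_zero]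
  rw [hS, map_sum] at h3
  have h4 := hind (fun i => (P i).map (IsLocalRing.residue A)) (by
    rw [← h3]
    refine Finset.sum_congr rfl fun i _ => ?_
    rw [map_mul, coeffMap_evalJ])
  exact hi0 (h4 i0)

end General

/-! ### The frame monomials -/

section Modular

variable (N : ℕ) [NeZero N] (ℓ : ℕ) [Fact ℓ.Prime]

/-- the `ψ(N)` frame monomials in the `j(q^d)`, `d ∣ N` (integer polynomial expressions) -/
def frameX (hℓN : ¬ ℓ ∣ N) : Fin (dedekindPsi N) → MvPolynomial ℕ ℤ :=
  (exists_independent_monomials_zmod N ℓ hℓN).choose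

theorem frameX_vars (hℓN : ¬ ℓ ∣ N) (i : Fin (dedekindPsi N)) :
    ∀ d ∈ (frameX N ℓ hℓN i).vars, d ∣ N :=
  (exists_independent_monomials_zmod N ℓ hℓN).choose_spec.1 i

/-- the frame monomials are independent over `k[j]` for every field `k` of characteristic `ℓ` -/
theorem frameX_indep (hℓN : ¬ ℓ ∣ N) (k : Type*) [Field k] [CharP k ℓ] :
    ∀ P : Fin (dedekindPsi N) → Polynomial k,
      ∑ i, evalJ k (jqModC k) (P i) * evalDiv k (frameX N ℓ hℓN i) = 0 → ∀ i, P i = 0 := by
  have hind := (exists_independent_monomials_zmod N ℓ hℓN).choose_spec.2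
  have h := poly_independent_coeffMap_gen (ZMod.castHom (dvd_refl ℓ) k) (jqModC (ZMod ℓ))
    (fun i => evalDiv (ZMod ℓ) (frameX N ℓ hℓN i)) hind
  intro P hP
  refine h P ?_
  rw [← hP]
  refine Finset.sum_congr rfl fun i _ => ?_
  rw [coeffMap_evalDiv, coeffMap_jqModC]
  rfl

variable (A : ValuationSubring (AlgebraicClosure ℚ))

local notation "Qb" => AlgebraicClosure ℚ
local notation "kA" => IsLocalRing.ResidueField A

/-- the frame monomials are independent over `Q̄[j]` (Laurent series form) -/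
theorem frameX_indep_zero (hℓN : ¬ ℓ ∣ N) (hA : A.LiesOverPrime ℓ) :
    ∀ p : Fin (dedekindPsi N) → Qb[X],
      ∑ i, evalJ Qb (jqModC Qb) (p i) * evalDiv Qb (frameX N ℓ hℓN i) = 0 → ∀ i, p i = 0 := by
  have := charP_residueField A hA
  have hK := frameX_indep N ℓ hℓN kA
  have h := poly_independent_of_residue A (jqModC A) (fun i => evalDiv A (frameX N ℓ hℓN i)) (by
    intro P hP
    refine hK P ?_
    rw [← hP]
    refine Finset.sum_congr rfl fun i _ => ?_
    rw [coeffMap_evalDiv, coeffMap_jqModC])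
  intro p hp
  refine h p ?_
  rw [← hp]
  refine Finset.sum_congr rfl fun i _ => ?_
  rw [coeffMap_evalDiv, coeffMap_jqModC]

/-! ### Integral polynomials in `j` and integral combinations of the frame -/

theorem evalJ_mem_IntRing (Q : A[X]) : evalJ A (jqModC A) Q ∈ IntRing N A := by
  have hj : jqModC A ∈ IntRing N A := jqModC_mem_IntRing N A
  have hrw : evalJ A (jqModC A) Q = aeval (jqModC A) Q := rfl
  rw [hrw, aeval_def, eval₂_eq_sum_range]
  refine Subring.sum_mem _ fun n _ => Subring.mul_mem _ ?_ (Subring.pow_mem _ hj _)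
  have : algebraMap A (LaurentSeries A) (Q.coeff n) = constA A (Q.coeff n) := by
    rw [algebraMap_laurent_eq_C, HahnSeries.C_apply]
    rfl
  rw [this]
  exact constA_mem _

/-- `Q(j)` for an integral polynomial `Q` -/
def polyJ (Q : A[X]) : IntRing N A := ⟨evalJ A (jqModC A) Q, evalJ_mem_IntRing N A Q⟩

/-- the frame monomials as integral modular functions -/
def frameTheta (hℓN : ¬ ℓ ∣ N) (i : Fin (dedekindPsi N)) : IntRing N A :=
  ⟨evalDiv A (frameX N ℓ hℓN i), evalDiv_mem_IntRing N A _ (frameX_vars N ℓ hℓN i)⟩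

/-- the integral combination `Σ P_i(j) θ_i` -/
def frameComb (hℓN : ¬ ℓ ∣ N) (P : Fin (dedekindPsi N) → A[X]) : IntRing N A :=
  ⟨∑ i, evalJ A (jqModC A) (P i) * evalDiv A (frameX N ℓ hℓN i),
    Subring.sum_mem _ fun i _ => Subring.mul_mem _ (evalJ_mem_IntRing N A (P i))
      (evalDiv_mem_IntRing N A _ (frameX_vars N ℓ hℓN i))⟩

theorem toL_polyJ (Q : A[X]) :
    toL A (polyJ N A Q).1 = evalJ Qb (jqModC Qb) (Q.map A.subtype) := by
  show coeffMap A.subtype (evalJ A (jqModC A) Q) = _
  rw [coeffMap_evalJ, coeffMap_jqModC]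

theorem toK_polyJ (Q : A[X]) :
    toK A (polyJ N A Q).1 = evalJ kA (jqModC kA) (Q.map (IsLocalRing.residue A)) := by
  show coeffMap (IsLocalRing.residue A) (evalJ A (jqModC A) Q) = _
  rw [coeffMap_evalJ, coeffMap_jqModC]

theorem toL_frameTheta (hℓN : ¬ ℓ ∣ N) (i : Fin (dedekindPsi N)) :
    toL A (frameTheta N ℓ A hℓN i).1 = evalDiv Qb (frameX N ℓ hℓN i) :=
  coeffMap_evalDiv _ _

theorem toK_frameTheta (hℓN : ¬ ℓ ∣ N) (i : Fin (dedekindPsi N)) :
    toK A (frameTheta N ℓ A hℓN i).1 = evalDiv kA (frameX N ℓ hℓN i) :=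
  coeffMap_evalDiv _ _

theorem toL_frameComb (hℓN : ¬ ℓ ∣ N) (P : Fin (dedekindPsi N) → A[X]) :
    toL A (frameComb N ℓ A hℓN P).1 =
      ∑ i, evalJ Qb (jqModC Qb) ((P i).map A.subtype) * evalDiv Qb (frameX N ℓ hℓN i) := by
  show coeffMap A.subtype (∑ i, evalJ A (jqModC A) (P i) * evalDiv A (frameX N ℓ hℓN i)) = _
  rw [map_sum]
  refine Finset.sum_congr rfl fun i _ => ?_
  rw [map_mul, coeffMap_evalJ, coeffMap_jqModC, coeffMap_evalDiv]

theorem toK_frameComb (hℓN : ¬ ℓ ∣ N) (P : Fin (dedekindPsi N) → A[X]) :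
    toK A (frameComb N ℓ A hℓN P).1 =
      ∑ i, evalJ kA (jqModC kA) ((P i).map (IsLocalRing.residue A)) *
        evalDiv kA (frameX N ℓ hℓN i) := by
  show coeffMap (IsLocalRing.residue A)
    (∑ i, evalJ A (jqModC A) (P i) * evalDiv A (frameX N ℓ hℓN i)) = _
  rw [map_sum]
  refine Finset.sum_congr rfl fun i _ => ?_
  rw [map_mul, coeffMap_evalJ, coeffMap_jqModC, coeffMap_evalDiv]

/-- a nonzero reduction: `Q̄ ≠ 0 ⇒ Q̄(j̄) ≠ 0` -/
theorem elemK_polyJ_ne_zero {Q : A[X]} (hQ : Q.map (IsLocalRing.residue A) ≠ 0) :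
    elemK (polyJ N A Q) ≠ 0 := by
  intro h0
  have h1 : toK A (polyJ N A Q).1 = 0 := by
    have := congrArg Subtype.val h0
    exact this
  rw [toK_polyJ] at h1
  exact evalJ_jqModC_ne_zero hQ h1

/-- a nonzero reduction: `P̄ ≠ 0 ⇒ Σ P̄_i(j̄) θ̄_i ≠ 0` -/
theorem elemK_frameComb_ne_zero (hℓN : ¬ ℓ ∣ N) (hA : A.LiesOverPrime ℓ)
    {P : Fin (dedekindPsi N) → A[X]} (hP : ∃ i, (P i).map (IsLocalRing.residue A) ≠ 0) :
    elemK (frameComb N ℓ A hℓN P) ≠ 0 := by
  have := charP_residueField A hA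
  intro h0
  have h1 : toK A (frameComb N ℓ A hℓN P).1 = 0 := by
    have := congrArg Subtype.val h0
    exact this
  rw [toK_frameComb] at h1
  obtain ⟨i, hi⟩ := hP
  exact hi (frameX_indep N ℓ hℓN kA _ h1 i)

/-! ### The frame in `FBar N` and the decomposition -/

/-- `y = j` as an element of `FBar N` -/
theorem elemL_polyJ (Q : A[X]) :
    elemL (polyJ N A Q) =
      aeval (Fermat.Agent.ProgramR.BarField.jBar Qb N) (Q.map A.subtype) := by
  apply Subtype.ext
  rw [coe_elemL, toL_polyJ, Fermat.Agent.ProgramR.BarField.coe_aeval_jBar,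
    Fermat.Agent.ProgramR.BarField.coeffEmb_jq]
  rfl

theorem elemL_frameComb (hℓN : ¬ ℓ ∣ N) (P : Fin (dedekindPsi N) → A[X]) :
    elemL (frameComb N ℓ A hℓN P) =
      ∑ i, aeval (Fermat.Agent.ProgramR.BarField.jBar Qb N) ((P i).map A.subtype) *
        elemL (frameTheta N ℓ A hℓN i) := by
  apply Subtype.ext
  rw [coe_elemL, toL_frameComb]
  simp only [AddSubmonoidClass.coe_finsetSum, MulMemClass.coe_mul,
    Fermat.Agent.ProgramR.BarField.coe_aeval_jBar, Fermat.Agent.ProgramR.BarField.coeffEmb_jq,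
    coe_elemL, toL_frameTheta]
  rfl

/-- the frame monomials are independent over `Q̄[j]` (in `FBar N`) -/
theorem frameTheta_indep (hℓN : ¬ ℓ ∣ N) (hA : A.LiesOverPrime ℓ) :
    ∀ p : Fin (dedekindPsi N) → Qb[X],
      ∑ i, aeval (Fermat.Agent.ProgramR.BarField.jBar Qb N) (p i) *
        elemL (frameTheta N ℓ A hℓN i) = 0 → ∀ i, p i = 0 := by
  intro p hp
  refine frameX_indep_zero N ℓ A hℓN hA p ?_
  have h1 := congrArg Subtype.val hp
  simp only [AddSubmonoidClass.coe_finsetSum, MulMemClass.coe_mul,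
    Fermat.Agent.ProgramR.BarField.coe_aeval_jBar, Fermat.Agent.ProgramR.BarField.coeffEmb_jq,
    coe_elemL, toL_frameTheta, ZeroMemClass.coe_zero] at h1
  exact h1

/-- every `f ∈ FBar N` is a combination of the frame with coefficients in `Q̄(j)` -/
theorem exists_repr_U (hℓN : ¬ ℓ ∣ N) (hA : A.LiesOverPrime ℓ) (f : FBar N) :
    ∃ (q : Qb[X]) (p : Fin (dedekindPsi N) → Qb[X]), q ≠ 0 ∧
      f * aeval (Fermat.Agent.ProgramR.BarField.jBar Qb N) q =
        ∑ i, aeval (Fermat.Agent.ProgramR.BarField.jBar Qb N) (p i) *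
          elemL (frameTheta N ℓ A hℓN i) := by
  by_contra hcon
  set θ : Fin (dedekindPsi N) → FBar N := fun i => elemL (frameTheta N ℓ A hℓN i) with hθ
  have hind' : ∀ p : Fin (dedekindPsi N + 1) → Qb[X],
      ∑ i, aeval (Fermat.Agent.ProgramR.BarField.jBar Qb N) (p i) *
        (Fin.cons f θ : Fin (dedekindPsi N + 1) → FBar N) i = 0 → ∀ i, p i = 0 := by
    intro p hp
    rw [Fin.sum_univ_succ] at hp
    simp only [Fin.cons_zero, Fin.cons_succ] at hp
    have hp0 : p 0 = 0 := by
      by_contra h0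
      refine hcon ⟨p 0, fun i => - p i.succ, h0, ?_⟩
      simp only [map_neg, neg_mul, Finset.sum_neg_distrib]
      linear_combination hp
    rw [hp0, map_zero, zero_mul, zero_add] at hp
    have h2 := frameTheta_indep N ℓ A hℓN hA (fun i => p i.succ) hp
    intro i
    exact Fin.cases hp0 h2 i
  have := Fermat.Agent.ProgramR.BarField.card_le_of_poly_independent N
    Fermat.Agent.ProgramR.BarField.qbarEmb (Fin.cons f θ) hind'
  omega

/-- **Decomposition, unconditional.**  Every nonzero `f ∈ FBar N` (`ℓ ∤ N`) is `c · a / b` with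
`c ∈ Q̄ˣ` and `a, b` integral modular functions with nonzero reduction. -/
theorem exists_decomp_U (hℓN : ¬ ℓ ∣ N) (hA : A.LiesOverPrime ℓ) {f : FBar N} (hf : f ≠ 0) :
    ∃ (c : Qb) (a b : IntRing N A), c ≠ 0 ∧ elemK a ≠ 0 ∧ elemK b ≠ 0 ∧
      f * elemL b = algebraMap Qb (FBar N) c * elemL a := by
  obtain ⟨q, p, hq, hrepr⟩ := exists_repr_U N ℓ A hℓN hA f
  have hqy : aeval (Fermat.Agent.ProgramR.BarField.jBar Qb N) q ≠ 0 := fun h0 =>
    hq (transcendental_iff.mp (Fermat.Agent.ProgramR.BarField.transcendental_jBar Qb N) q h0)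
  have hp : ∃ i, p i ≠ 0 := by
    by_contra hall
    push Not at hall
    have : ∑ i, aeval (Fermat.Agent.ProgramR.BarField.jBar Qb N) (p i) *
        elemL (frameTheta N ℓ A hℓN i) = 0 :=
      Finset.sum_eq_zero fun i _ => by rw [hall i, map_zero, zero_mul]
    rw [this] at hrepr
    exact (mul_ne_zero hf hqy) hrepr
  obtain ⟨c1, Q, hc1, hQ, hQ0⟩ := exists_normalize_poly_one A hq
  obtain ⟨c0, P, hc0, hP, hP0⟩ := exists_normalize_poly A p hp
  refine ⟨c0 / c1, frameComb N ℓ A hℓN P, polyJ N A Q, div_ne_zero hc0 hc1,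
    elemK_frameComb_ne_zero N ℓ A hℓN hA hP0, elemK_polyJ_ne_zero N A hQ0, ?_⟩
  have h1 : aeval (Fermat.Agent.ProgramR.BarField.jBar Qb N) q =
      algebraMap Qb (FBar N) c1 * elemL (polyJ N A Q) := by
    rw [elemL_polyJ, hQ, map_mul, aeval_C]
  have h2 : ∑ i, aeval (Fermat.Agent.ProgramR.BarField.jBar Qb N) (p i) *
      elemL (frameTheta N ℓ A hℓN i) =
        algebraMap Qb (FBar N) c0 * elemL (frameComb N ℓ A hℓN P) := by
    rw [elemL_frameComb, Finset.mul_sum]
    refine Finset.sum_congr rfl fun i _ => ?_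
    rw [hP i, map_mul, aeval_C]
    ring
  rw [h1, h2] at hrepr
  have hc1F : algebraMap Qb (FBar N) c1 ≠ 0 := by
    rw [Ne, map_eq_zero_iff _ (algebraMap Qb (FBar N)).injective]
    exact hc1
  rw [map_div₀]
  field_simp
  linear_combination hrepr

end Modular

end Fermat.Agent.S18lib.V
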