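/-
S18lib / V / GaussU / Datum  (helper7)

**(U)** the UNCONDITIONAL Gauss datum `V.gaussDatum N A hℓN hA : GaussDatum A (FBar N) (FRes A N)`
for every level `N` prime to `ℓ`: `O = {a / b}` (helper4's `gaussSubring`), `red (a / b) = ā / b̄`.
No reduction inputs `h`, hence available at the auxiliary levels `4N`, `9N`.
For a level with reduction inputs it is `(V.datum N A hℓN hA h).toGaussDatum`.
-/
import Fermat.Agent.S18lib.V.GaussU.Decomp
import Fermat.Agent.S18lib.Weak.Lemmas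

set_option autoImplicit false
set_option linter.unusedSectionVars false
set_option linter.unusedVariables false

noncomputable section

namespace Fermat.Agent.S18lib.V

open AlgebraicCurve ModularCurve HahnSeries IntermediateField

variable (N : ℕ) [NeZero N] (A : ValuationSubring (AlgebraicClosure ℚ))
variable {ℓ : ℕ} [Fact ℓ.Prime]

/-- `gaussSubring` is a valuation ring, unconditionally -/
theorem mem_or_inv_mem_gaussSubring_U (hℓN : ¬ ℓ ∣ N) (hA : A.LiesOverPrime ℓ) (x : FBar N) :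
    x ∈ gaussSubring N A ∨ x⁻¹ ∈ gaussSubring N A := by
  by_cases hx : x = 0
  · left; rw [hx]; exact zero_mem _
  obtain ⟨c, a, b, hc, ha, hb, hxab⟩ := exists_decomp_U N ℓ A hℓN hA hx
  rcases A.mem_or_inv_mem c with hcA | hcA
  · left
    refine ⟨constI ⟨c, hcA⟩ * a, b, hb, ?_⟩
    rw [elemL_mul, elemL_constI, hxab]
  · right
    refine ⟨constI ⟨c⁻¹, hcA⟩ * b, a, ha, ?_⟩
    rw [elemL_mul, elemL_constI]
    have hbL := elemL_ne_zero_of_elemK_ne_zero hb
    have hcF : algebraMap (AlgebraicClosure ℚ) (FBar N) c ≠ 0 := by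
      rw [Ne, map_eq_zero_iff _ (algebraMap (AlgebraicClosure ℚ) (FBar N)).injective]
      exact hc
    have h1 : elemL a = (algebraMap (AlgebraicClosure ℚ) (FBar N) c)⁻¹ * (x * elemL b) := by
      rw [hxab, inv_mul_cancel_left₀ hcF]
    rw [h1, map_inv₀]
    field_simp

/-- the Gauss valuation ring, unconditionally -/
def gaussRingU (hℓN : ¬ ℓ ∣ N) (hA : A.LiesOverPrime ℓ) : ValuationSubring (FBar N) :=
  { gaussSubring N A with
    mem_or_inv_mem' := mem_or_inv_mem_gaussSubring_U N A hℓN hA }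

theorem mem_gaussRingU {hℓN : ¬ ℓ ∣ N} {hA : A.LiesOverPrime ℓ} {x : FBar N} :
    x ∈ gaussRingU N A hℓN hA ↔ ∃ a b : IntRing N A, IsRep x a b := Iff.rfl

/-- the reduction map of the Gauss ring -/
def gaussRedU (hℓN : ¬ ℓ ∣ N) (hA : A.LiesOverPrime ℓ) :
    gaussRingU N A hℓN hA →+* FRes A N where
  toFun x := redFun x.1 x.2
  map_one' := by
    refine (redFun_eq (x := (1 : FBar N)) ⟨_, _, isRep_one⟩ isRep_one).trans ?_
    rw [elemK_one, div_one]
  map_mul' := by
    rintro ⟨x, a, b, h⟩ ⟨y, a', b', h'⟩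
    rw [redFun_eq _ h, redFun_eq _ h']
    have := redFun_eq (x := x * y) ⟨_, _, h.mul h'⟩ (h.mul h')
    refine this.trans ?_
    rw [elemK_mul, elemK_mul, mul_div_mul_comm]
  map_zero' := by
    refine (redFun_eq (x := (0 : FBar N)) ⟨_, _, isRep_zero⟩ isRep_zero).trans ?_
    rw [elemK_zero, zero_div]
  map_add' := by
    rintro ⟨x, a, b, h⟩ ⟨y, a', b', h'⟩
    rw [redFun_eq _ h, redFun_eq _ h']
    have := redFun_eq (x := x + y) ⟨_, _, h.add h'⟩ (h.add h')
    refine this.trans ?_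
    rw [elemK_add, elemK_mul, elemK_mul, elemK_mul, div_add_div _ _ h.1 h'.1,
      mul_comm (elemK b) (elemK a')]

theorem gaussRedU_apply {hℓN : ¬ ℓ ∣ N} {hA : A.LiesOverPrime ℓ}
    {x : FBar N} (hx : x ∈ gaussRingU N A hℓN hA) {a b : IntRing N A} (h : IsRep x a b) :
    gaussRedU N A hℓN hA ⟨x, hx⟩ = elemK a / elemK b :=
  redFun_eq hx h

/-- **(U)** the unconditional Gauss datum of level `N`, `ℓ ∤ N`. -/
def gaussDatum (hℓN : ¬ ℓ ∣ N) (hA : A.LiesOverPrime ℓ) : GaussDatum A (FBar N) (FRes A N) where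
  O := gaussRingU N A hℓN hA
  algebraMap_mem_iff := algebraMap_mem_gaussSubring_iff
  red := gaussRedU N A hℓN hA
  red_surjective := by
    intro η
    obtain ⟨x, a, b, hx, hη⟩ := exists_isRep_of_FRes η
    exact ⟨⟨x, a, b, hx⟩, (gaussRedU_apply N A _ hx).trans hη⟩
  red_algebraMap := by
    intro a ha
    have hrep : IsRep (algebraMap (AlgebraicClosure ℚ) (FBar N) (a : AlgebraicClosure ℚ))
        (constI (N := N) a) 1 :=
      ⟨by rw [elemK_one]; exact one_ne_zero, by rw [elemL_one, mul_one, elemL_constI]⟩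
    rw [gaussRedU_apply N A ha hrep, elemK_one, div_one, elemK_constI]
  exists_const_mul_isUnit := by
    intro f hf
    obtain ⟨c, a, b, hc, ha, hb, hfab⟩ := exists_decomp_U N ℓ A hℓN hA hf
    have haL := elemL_ne_zero_of_elemK_ne_zero ha
    have hbL := elemL_ne_zero_of_elemK_ne_zero hb
    have hrep : IsRep (elemL a / elemL b) a b := ⟨hb, div_mul_cancel₀ _ hbL⟩
    have hrep' : IsRep (elemL a / elemL b)⁻¹ b a := hrep.inv ha
    have hne : elemL a / elemL b ≠ 0 := div_ne_zero haL hbL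
    refine ⟨c⁻¹, inv_ne_zero hc,
      ⟨⟨_, a, b, hrep⟩, ⟨_, b, a, hrep'⟩, Subtype.ext (mul_inv_cancel₀ hne),
        Subtype.ext (inv_mul_cancel₀ hne)⟩, ?_⟩
    have hcF : algebraMap (AlgebraicClosure ℚ) (FBar N) c ≠ 0 := by
      rw [Ne, map_eq_zero_iff _ (algebraMap (AlgebraicClosure ℚ) (FBar N)).injective]
      exact hc
    show algebraMap (AlgebraicClosure ℚ) (FBar N) c⁻¹ * f = elemL a / elemL b
    rw [eq_div_iff hbL, mul_assoc, hfab, map_inv₀, inv_mul_cancel_left₀ hcF]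

theorem mem_gaussDatum_O (hℓN : ¬ ℓ ∣ N) (hA : A.LiesOverPrime ℓ) {x : FBar N} :
    x ∈ (gaussDatum N A hℓN hA).O ↔ ∃ a b : IntRing N A, IsRep x a b := Iff.rfl

theorem gaussDatum_red_apply (hℓN : ¬ ℓ ∣ N) (hA : A.LiesOverPrime ℓ)
    {x : FBar N} (hx : x ∈ (gaussDatum N A hℓN hA).O) {a b : IntRing N A} (hab : IsRep x a b) :
    (gaussDatum N A hℓN hA).red ⟨x, hx⟩ = elemK a / elemK b :=
  gaussRedU_apply N A hx hab

theorem gaussDatum_redF_apply (hℓN : ¬ ℓ ∣ N) (hA : A.LiesOverPrime ℓ)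
    {x : FBar N} {a b : IntRing N A} (hab : IsRep x a b) :
    (gaussDatum N A hℓN hA).redF x = elemK a / elemK b := by
  have hx : x ∈ (gaussDatum N A hℓN hA).O := ⟨a, b, hab⟩
  rw [GaussDatum.redF_of_mem _ hx]
  exact gaussDatum_red_apply N A hℓN hA hx hab

/-- integral modular functions lie in `O` and reduce to their reduction -/
theorem elemL_mem_gaussDatum_O (hℓN : ¬ ℓ ∣ N) (hA : A.LiesOverPrime ℓ) (a : IntRing N A) :
    elemL a ∈ (gaussDatum N A hℓN hA).O :=
  ⟨a, 1, by rw [elemK_one]; exact one_ne_zero, by rw [elemL_one, mul_one]⟩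

theorem gaussDatum_redF_elemL (hℓN : ¬ ℓ ∣ N) (hA : A.LiesOverPrime ℓ) (a : IntRing N A) :
    (gaussDatum N A hℓN hA).redF (elemL a) = elemK a := by
  have hrep : IsRep (elemL a) a 1 :=
    ⟨by rw [elemK_one]; exact one_ne_zero, by rw [elemL_one, mul_one]⟩
  rw [gaussDatum_redF_apply N A hℓN hA hrep, elemK_one, div_one]

/-- description of `O` and `red` on integral Laurent series (same statement as
`V.datum_red_coeffMap`) -/
theorem gaussDatum_red_coeffMap (hℓN : ¬ ℓ ∣ N) (hA : A.LiesOverPrime ℓ)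
    (y : LaurentSeries A) (hy : coeffMap A.subtype y ∈ modularFunctionFieldBar N)
    (hyk : coeffMap (IsLocalRing.residue A) y ∈
      modularFunctionFieldFullC (IsLocalRing.ResidueField A) N) :
    ∃ hO : (⟨coeffMap A.subtype y, hy⟩ : FBar N) ∈ (gaussDatum N A hℓN hA).O,
      (gaussDatum N A hℓN hA).red ⟨(⟨coeffMap A.subtype y, hy⟩ : FBar N), hO⟩
        = (⟨coeffMap (IsLocalRing.residue A) y, hyk⟩ : FRes A N) := by
  have hrep : IsRep (⟨coeffMap A.subtype y, hy⟩ : FBar N) (⟨y, hy, hyk⟩ : IntRing N A) 1 :=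
    ⟨by rw [elemK_one]; exact one_ne_zero, by rw [elemL_one, mul_one]; rfl⟩
  refine ⟨⟨_, _, hrep⟩, ?_⟩
  rw [gaussDatum_red_apply N A hℓN hA _ hrep, elemK_one, div_one]
  rfl

/-- compatibility with the full datum at a level with reduction inputs -/
theorem datum_toGaussDatum (hℓN : ¬ ℓ ∣ N) (hA : A.LiesOverPrime ℓ)
    (h : ReductionInputsModL A N) :
    (datum N A hℓN hA h).toGaussDatum = gaussDatum N A hℓN hA := rfl

theorem datum_O_eq (hℓN : ¬ ℓ ∣ N) (hA : A.LiesOverPrime ℓ) (h : ReductionInputsModL A N) :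
    (datum N A hℓN hA h).O = (gaussDatum N A hℓN hA).O := rfl

theorem datum_redF_eq (hℓN : ¬ ℓ ∣ N) (hA : A.LiesOverPrime ℓ) (h : ReductionInputsModL A N)
    (x : FBar N) : (datum N A hℓN hA h).redF x = (gaussDatum N A hℓN hA).redF x := rfl

end Fermat.Agent.S18lib.V
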