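/-
S18lib / V / GaussU / Frame  (helper7)

**(U-frame)** the unconditional Gauss datum has a frame: `y = j`, `θ_i` = the `ψ(N)` frame
monomials; hence it has orthonormal bases.
-/
import Fermat.Agent.S18lib.V.GaussU.Datum
import Fermat.Agent.S18lib.Weak.Frame

set_option autoImplicit false
set_option linter.unusedSectionVars false

noncomputable section

namespace Fermat.Agent.S18lib.V

open ModularCurve Fermat.Agent.S28lib Polynomial AlgebraicCurve

variable (N : ℕ) [NeZero N] (A : ValuationSubring (AlgebraicClosure ℚ))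
variable {ℓ : ℕ} [Fact ℓ.Prime]

local notation "Qb" => AlgebraicClosure ℚ
local notation "kA" => IsLocalRing.ResidueField A

/-- the integral `j` -/
def frameJ : IntRing N A := ⟨jqModC A, jqModC_mem_IntRing N A⟩

/-- `j̄ ∈ FRes A N` -/
def jRes : FRes A N := elemK (frameJ N A)

/-- `θ̄_i ∈ FRes A N` -/
def thetaRes (hℓN : ¬ ℓ ∣ N) (i : Fin (dedekindPsi N)) : FRes A N :=
  elemK (frameTheta N ℓ A hℓN i)

theorem coe_jRes : ((jRes N A : FRes A N) : LaurentSeries kA) = jqModC kA :=
  coeffMap_jqModC _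

theorem coe_thetaRes (hℓN : ¬ ℓ ∣ N) (i : Fin (dedekindPsi N)) :
    ((thetaRes N A hℓN i : FRes A N) : LaurentSeries kA) = evalDiv kA (frameX N ℓ hℓN i) :=
  toK_frameTheta N ℓ A hℓN i

theorem elemL_frameJ : elemL (frameJ N A) = Fermat.Agent.ProgramR.BarField.jBar Qb N :=
  Subtype.ext (by
    rw [Fermat.Agent.ProgramR.BarField.coe_jBar]
    exact coeffMap_jqModC _)

theorem jBar_mem_gaussDatum_O (hℓN : ¬ ℓ ∣ N) (hA : A.LiesOverPrime ℓ) :
    Fermat.Agent.ProgramR.BarField.jBar Qb N ∈ (gaussDatum N A hℓN hA).O := by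
  rw [← elemL_frameJ N A]
  exact elemL_mem_gaussDatum_O N A hℓN hA _

theorem gaussDatum_redF_jBar (hℓN : ¬ ℓ ∣ N) (hA : A.LiesOverPrime ℓ) :
    (gaussDatum N A hℓN hA).redF (Fermat.Agent.ProgramR.BarField.jBar Qb N) = jRes N A := by
  rw [← elemL_frameJ N A]
  exact gaussDatum_redF_elemL N A hℓN hA _

theorem gaussDatum_redF_frameTheta (hℓN : ¬ ℓ ∣ N) (hA : A.LiesOverPrime ℓ)
    (i : Fin (dedekindPsi N)) :
    (gaussDatum N A hℓN hA).redF (elemL (frameTheta N ℓ A hℓN i)) = thetaRes N A hℓN i :=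
  gaussDatum_redF_elemL N A hℓN hA _

/-- the reductions `j̄^a θ̄_i` are linearly independent over `k` -/
theorem linearIndependent_jRes_thetaRes (hℓN : ¬ ℓ ∣ N) (hA : A.LiesOverPrime ℓ) :
    LinearIndependent kA
      (fun m : ℕ × Fin (dedekindPsi N) => jRes N A ^ m.1 * thetaRes N A hℓN m.2) := by
  have := charP_residueField A hA
  have hpoly : ∀ p : Fin (dedekindPsi N) → kA[X],
      ∑ i, aeval (jqModC kA) (p i) * evalDiv kA (frameX N ℓ hℓN i) = 0 → ∀ i, p i = 0 :=
    fun p hp => frameX_indep N ℓ hℓN kA p hp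
  have h1 := linearIndependent_monomials_of_poly (R := kA) (jqModC kA)
    (fun i => evalDiv kA (frameX N ℓ hℓN i)) hpoly
  refine @LinearIndependent.of_comp _ kA (FRes A N) (LaurentSeries kA) _ _ _ _ _
    Algebra.toModule (IntermediateField.val (modularFunctionFieldFullC kA N)).toLinearMap ?_
  have heq : (⇑(IntermediateField.val (modularFunctionFieldFullC kA N)).toLinearMap ∘
      fun m : ℕ × Fin (dedekindPsi N) => jRes N A ^ m.1 * thetaRes N A hℓN m.2) =
      fun m : ℕ × Fin (dedekindPsi N) => jqModC kA ^ m.1 * evalDiv kA (frameX N ℓ hℓN m.2) := by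
    funext m
    simp only [Function.comp_apply, AlgHom.toLinearMap_apply, IntermediateField.coe_val,
      MulMemClass.coe_mul, SubmonoidClass.coe_pow]
    rw [coe_jRes, coe_thetaRes]
  rw [heq]
  exact h1

/-- **(U-frame)** `(j, θ)` is a frame family of the unconditional Gauss datum. -/
theorem gaussDatum_isFrameFamily (hℓN : ¬ ℓ ∣ N) (hA : A.LiesOverPrime ℓ) :
    WFrame.IsFrameFamily (gaussDatum N A hℓN hA) (Fermat.Agent.ProgramR.BarField.jBar Qb N)
      (fun i => elemL (frameTheta N ℓ A hℓN i)) where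
  n_pos := Fermat.Agent.ProgramR.BarField.dedekindPsi_pos N
  y_mem := jBar_mem_gaussDatum_O N A hℓN hA
  θ_mem := fun i => elemL_mem_gaussDatum_O N A hℓN hA _
  exists_repr := exists_repr_U N ℓ A hℓN hA
  red_indep := by
    simp only [gaussDatum_redF_jBar, gaussDatum_redF_frameTheta]
    exact linearIndependent_jRes_thetaRes N A hℓN hA

/-- **(U)** the unconditional Gauss datum has orthonormal bases. -/
theorem gaussDatum_hasOrthonormalBases (hℓN : ¬ ℓ ∣ N) (hA : A.LiesOverPrime ℓ) :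
    (gaussDatum N A hℓN hA).HasOrthonormalBases :=
  (gaussDatum_isFrameFamily N A hℓN hA).hasOrthonormalBases

end Fermat.Agent.S18lib.V
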