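/-
S18lib / V / GaussU / Level2  (helper7's Level.lean; memory-safe proofs by helper6)

DROP-IN REPLACEMENT of `V/GaussU/Level.lean` (same namespace, same names, same statements): import
THIS file and never `Level.lean` (the two must not meet in one import closure). In `Level.lean` the
`rfl` proofs through the inclusions make the unifier compare `modularFunctionFieldBar N'` with
`modularFunctionFieldBar N` (implicit predicate of `Subtype.val`), which needs > 14 GB. Here these
are proved through `IntermediateField.coe_inclusion` / `Subring.coe_inclusion` / `Subtype.ext`.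

**(U-level)** compatibility of the unconditional Gauss data between levels `N ∣ N'` (both prime to
`ℓ`): the honest inclusions `FBar N ⊆ FBar N'` (inside `Q̄((q))`), `FRes A N ⊆ FRes A N'` (inside
`k((q))`), `O_N = O_{N'} ∩ FBar N`, and the reduction maps commute with the inclusions.
-/
import Fermat.Agent.S18lib.V.GaussU.Frame
import Fermat.Agent.S18lib.Gink.JK

set_option autoImplicit false
set_option linter.unusedSectionVars false

noncomputable section

namespace Fermat.Agent.S18lib.V

open ModularCurve Fermat.Agent.S28lib Polynomial AlgebraicCurve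

/-! ### Generalities on Gauss data -/

section General

variable {L : Type*} [Field L] {A : ValuationSubring L}
variable {F : Type*} [Field F] [Algebra L F]
variable {Fk : Type*} [Field Fk] [Algebra (IsLocalRing.ResidueField A) Fk]

/-- the inverse of an element outside `O` has reduction `0` -/
theorem GaussDatum_redF_inv_eq_zero_of_not_mem (D : GaussDatum A F Fk) {x : F} (hx : x ∉ D.O) :
    D.redF x⁻¹ = 0 := by
  by_contra h
  have := D.inv_mem_of_redF_ne_zero h
  rw [inv_inv] at this
  exact hx this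

/-- an element of `O` whose inverse is in `O` has nonzero reduction -/
theorem GaussDatum_redF_ne_zero_of_inv_mem (D : GaussDatum A F Fk) {x : F} (hx0 : x ≠ 0)
    (hx : x ∈ D.O) (hx' : x⁻¹ ∈ D.O) : D.redF x ≠ 0 := by
  rw [D.redF_ne_zero_iff]
  exact ⟨⟨⟨x, hx⟩, ⟨x⁻¹, hx'⟩, Subtype.ext (mul_inv_cancel₀ hx0),
    Subtype.ext (inv_mul_cancel₀ hx0)⟩, rfl⟩

end General

/-! ### The inclusions -/

section Level

variable {N N' : ℕ} [NeZero N] [NeZero N'] (A : ValuationSubring (AlgebraicClosure ℚ))
variable {ℓ : ℕ} [Fact ℓ.Prime]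

local notation "Qb" => AlgebraicClosure ℚ
local notation "kA" => IsLocalRing.ResidueField A

theorem laurentBaseChange_mono (L : Type*) [Field L] [Algebra ℚ L]
    {F₀ F₁ : IntermediateField ℚ (LaurentSeries ℚ)} (h : F₀ ≤ F₁) :
    laurentBaseChange L F₀ ≤ laurentBaseChange L F₁ := by
  rw [laurentBaseChange, IntermediateField.adjoin_le_iff]
  rintro _ ⟨y, hy, rfl⟩
  exact coeffEmb_mem_laurentBaseChange L (h hy)

theorem modularFunctionFieldBar_le (h : N ∣ N') :
    modularFunctionFieldBar N ≤ modularFunctionFieldBar N' :=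
  laurentBaseChange_mono Qb (full_degeneracy_le h)

theorem IntRing_le (h : N ∣ N') : IntRing N A ≤ IntRing N' A := fun _ hy =>
  ⟨modularFunctionFieldBar_le h hy.1, full_degeneracyC_le kA h hy.2⟩

/-- the inclusion `FBar N ⊆ FBar N'`, `N ∣ N'` -/
def inclL (h : N ∣ N') : FBar N →ₐ[Qb] FBar N' :=
  IntermediateField.inclusion (modularFunctionFieldBar_le h)

/-- the inclusion `FRes A N ⊆ FRes A N'`, `N ∣ N'` -/
def inclK (h : N ∣ N') : FRes A N →ₐ[kA] FRes A N' :=
  IntermediateField.inclusion (full_degeneracyC_le kA h)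

/-- the inclusion of the rings of integral modular functions -/
def inclI (h : N ∣ N') : IntRing N A →+* IntRing N' A := Subring.inclusion (IntRing_le A h)

@[simp] theorem coe_inclL (h : N ∣ N') (x : FBar N) :
    ((inclL h x : FBar N') : LaurentSeries Qb) = (x : LaurentSeries Qb) :=
  IntermediateField.coe_inclusion (modularFunctionFieldBar_le h) x

@[simp] theorem coe_inclK (h : N ∣ N') (x : FRes A N) :
    ((inclK A h x : FRes A N') : LaurentSeries kA) = (x : LaurentSeries kA) :=
  IntermediateField.coe_inclusion (full_degeneracyC_le kA h) x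

@[simp] theorem coe_inclI (h : N ∣ N') (a : IntRing N A) :
    ((inclI A h a : IntRing N' A) : LaurentSeries A) = (a : LaurentSeries A) :=
  Subring.coe_inclusion (IntRing_le A h) a

theorem inclL_injective (h : N ∣ N') : Function.Injective (inclL (N := N) (N' := N') h) :=
  (inclL h).toRingHom.injective

theorem inclK_injective (h : N ∣ N') : Function.Injective (inclK (N := N) (N' := N') A h) :=
  (inclK A h).toRingHom.injective

theorem elemL_inclI (h : N ∣ N') (a : IntRing N A) : elemL (inclI A h a) = inclL h (elemL a) :=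
  Subtype.ext (by rw [coe_inclL, coe_elemL, coe_elemL, coe_inclI])

theorem elemK_inclI (h : N ∣ N') (a : IntRing N A) :
    elemK (inclI A h a) = inclK A h (elemK a) :=
  Subtype.ext (by rw [coe_inclK, coe_elemK, coe_elemK, coe_inclI])

theorem IsRep.incl (h : N ∣ N') {x : FBar N} {a b : IntRing N A} (hab : IsRep x a b) :
    IsRep (inclL h x) (inclI A h a) (inclI A h b) := by
  refine ⟨?_, ?_⟩
  · rw [elemK_inclI]
    intro h0
    exact hab.1 (inclK_injective A h (h0.trans (map_zero _).symm))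
  · rw [elemL_inclI, elemL_inclI, ← map_mul, hab.2]

theorem inclL_jBar (h : N ∣ N') :
    inclL h (Fermat.Agent.ProgramR.BarField.jBar Qb N) =
      Fermat.Agent.ProgramR.BarField.jBar Qb N' :=
  Subtype.ext (by
    rw [coe_inclL, Fermat.Agent.ProgramR.BarField.coe_jBar,
      Fermat.Agent.ProgramR.BarField.coe_jBar])

theorem inclK_jK (h : N ∣ N') : inclK A h (Gink.jK A N) = Gink.jK A N' :=
  Subtype.ext (by rw [coe_inclK, Gink.coe_jK, Gink.coe_jK])

theorem jRes_eq_jK : jRes N A = Gink.jK A N := Subtype.ext (coe_jRes N A)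

theorem thetaRes_eq_monK (hℓN : ¬ ℓ ∣ N) (i : Fin (dedekindPsi N)) :
    thetaRes N A hℓN i = Gink.monK A N (frameX N ℓ hℓN i) (frameX_vars N ℓ hℓN i) :=
  Subtype.ext (coe_thetaRes N A hℓN i)

/-! ### Compatibility of the Gauss data -/

theorem not_dvd_of_level_dvd (h : N ∣ N') (hℓN' : ¬ ℓ ∣ N') : ¬ ℓ ∣ N := fun hℓ => hℓN' (hℓ.trans h)

theorem inclL_mem_gaussDatum_O (h : N ∣ N') (hℓN' : ¬ ℓ ∣ N') (hA : A.LiesOverPrime ℓ)
    {x : FBar N} (hx : x ∈ (gaussDatum N A (not_dvd_of_level_dvd h hℓN') hA).O) :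
    inclL h x ∈ (gaussDatum N' A hℓN' hA).O := by
  obtain ⟨a, b, hab⟩ := hx
  exact ⟨_, _, hab.incl A h⟩

theorem gaussDatum_redF_inclL_of_mem (h : N ∣ N') (hℓN' : ¬ ℓ ∣ N') (hA : A.LiesOverPrime ℓ)
    {x : FBar N} (hx : x ∈ (gaussDatum N A (not_dvd_of_level_dvd h hℓN') hA).O) :
    (gaussDatum N' A hℓN' hA).redF (inclL h x) =
      inclK A h ((gaussDatum N A (not_dvd_of_level_dvd h hℓN') hA).redF x) := by
  obtain ⟨a, b, hab⟩ := hx
  rw [gaussDatum_redF_apply N' A hℓN' hA (hab.incl A h),
    gaussDatum_redF_apply N A (not_dvd_of_level_dvd h hℓN') hA hab, elemK_inclI, elemK_inclI, map_div₀]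

/-- `O_N = O_{N'} ∩ FBar N` -/
theorem inclL_mem_gaussDatum_O_iff (h : N ∣ N') (hℓN' : ¬ ℓ ∣ N') (hA : A.LiesOverPrime ℓ)
    (x : FBar N) :
    inclL h x ∈ (gaussDatum N' A hℓN' hA).O ↔
      x ∈ (gaussDatum N A (not_dvd_of_level_dvd h hℓN') hA).O := by
  refine ⟨fun hx' => ?_, inclL_mem_gaussDatum_O A h hℓN' hA⟩
  by_contra hx
  set D := gaussDatum N A (not_dvd_of_level_dvd h hℓN') hA with hD
  set D' := gaussDatum N' A hℓN' hA with hD'
  have hx0 : x ≠ 0 := by
    rintro rfl
    exact hx (zero_mem _)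
  have hinv : x⁻¹ ∈ D.O := (D.O.mem_or_inv_mem x).resolve_left hx
  have h0 : D.redF x⁻¹ = 0 := GaussDatum_redF_inv_eq_zero_of_not_mem D hx
  have h1 : D'.redF (inclL h x⁻¹) = 0 := by
    rw [gaussDatum_redF_inclL_of_mem A h hℓN' hA hinv, ← hD, h0, map_zero]
  have hinv' : inclL h x⁻¹ ∈ D'.O := inclL_mem_gaussDatum_O A h hℓN' hA hinv
  have hne : inclL h x⁻¹ ≠ 0 := by
    rw [Ne, map_eq_zero_iff _ (inclL_injective h)]
    exact inv_ne_zero hx0
  refine GaussDatum_redF_ne_zero_of_inv_mem D' hne hinv' ?_ h1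
  rw [map_inv₀, inv_inv]
  exact hx'

/-- the reduction maps commute with the inclusions -/
theorem gaussDatum_redF_inclL (h : N ∣ N') (hℓN' : ¬ ℓ ∣ N') (hA : A.LiesOverPrime ℓ)
    (x : FBar N) :
    (gaussDatum N' A hℓN' hA).redF (inclL h x) =
      inclK A h ((gaussDatum N A (not_dvd_of_level_dvd h hℓN') hA).redF x) := by
  by_cases hx : x ∈ (gaussDatum N A (not_dvd_of_level_dvd h hℓN') hA).O
  · exact gaussDatum_redF_inclL_of_mem A h hℓN' hA hx
  · have hx' : inclL h x ∉ (gaussDatum N' A hℓN' hA).O := fun h' =>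
      hx ((inclL_mem_gaussDatum_O_iff A h hℓN' hA x).mp h')
    rw [GaussDatum.redF_of_not_mem _ hx, GaussDatum.redF_of_not_mem _ hx', map_zero]

end Level

end Fermat.Agent.S18lib.V
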