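/-
S18lib / V / GaussU / LevelFin  (helper6)

The relative degrees of the level inclusions `FBar N ⊆ FBar N'`, `FRes A N ⊆ FRes A N'`
(`N ∣ N'`, `ℓ ∤ N'`) of `V/GaussU/Level2.lean` agree:

  `ψ(N) · [FBar N' : FBar N] = ψ(N')`,  `ψ(N) · [FRes A N' : FRes A N] = ψ(N')`,

hence `[FBar N' : FBar N] = [FRes A N' : FRes A N]` (`hdeg'` of `Norm/Tower.lean`). The algebra
structures are `(inclL h).toRingHom.toAlgebra`, `(inclK A h).toRingHom.toAlgebra`.
-/
import Mathlib
import Fermat.Agent.S18lib.V.GaussU.Level2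
import Fermat.Agent.S18lib.Gin0.Main
import Fermat.Agent.S18lib.Gink.Degree

set_option autoImplicit false
set_option linter.unusedSectionVars false
set_option linter.style.haveILetI false

noncomputable section

namespace Fermat.Agent.S18lib.V

open ModularCurve IntermediateField Module

/-- **Tower law through an inclusion of intermediate fields.** For `F ≤ F'` intermediate fields
of `E / K` and `x : F`: `[F : K(x)] · [F' : F] = [F' : K(x)]`, where on the right `x` is seen in
`F'`. -/
theorem finrank_adjoin_tower {K E : Type*} [Field K] [Field E] [Algebra K E]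
    {F F' : IntermediateField K E} (h : F ≤ F') (x : F) :
    letI : Algebra F F' := (IntermediateField.inclusion h).toRingHom.toAlgebra
    finrank K⟮x⟯ F * finrank F F' = finrank K⟮IntermediateField.inclusion h x⟯ F' := by
  letI algFF' : Algebra F F' := (IntermediateField.inclusion h).toRingHom.toAlgebra
  set φ : F →ₐ[K] F' := IntermediateField.inclusion h with hφ
  letI alg1 : Algebra K⟮x⟯ F' := (φ.toRingHom.comp (algebraMap K⟮x⟯ F)).toAlgebra
  haveI : IsScalarTower K⟮x⟯ F F' := IsScalarTower.of_algebraMap_eq (fun a => rfl)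
  have tower : finrank K⟮x⟯ F * finrank F F' = finrank K⟮x⟯ F' :=
    Module.finrank_mul_finrank K⟮x⟯ F F'
  have hmap : K⟮x⟯.map φ = K⟮φ x⟯ := by
    rw [IntermediateField.adjoin_map, Set.image_singleton]
  let i : K⟮x⟯ ≃+* K⟮φ x⟯ :=
    ((IntermediateField.equivMap K⟮x⟯ φ).trans (IntermediateField.equivOfEq hmap)).toRingEquiv
  have key : finrank K⟮x⟯ F' = finrank K⟮φ x⟯ F' := by
    refine Algebra.finrank_eq_of_equiv_equiv i (RingEquiv.refl F') ?_
    ext a
    rfl
  exact tower.trans key

section Level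

variable {N N' : ℕ} [NeZero N] [NeZero N'] (A : ValuationSubring (AlgebraicClosure ℚ))
variable {ℓ : ℕ} [Fact ℓ.Prime]

local notation "Qb" => AlgebraicClosure ℚ
local notation "kA" => IsLocalRing.ResidueField A

/-- `j` at level `N` is `j` at level `N'` (characteristic zero). -/
theorem inclL_jF (h : N ∣ N') : inclL h (Gin0.jF N) = Gin0.jF N' :=
  inclL_jBar h

/-- `ψ(N) · [FBar N' : FBar N] = ψ(N')`. -/
theorem dedekindPsi_mul_finrank_inclL (h : N ∣ N') :
    dedekindPsi N * @finrank (FBar N) (FBar N') _ _ (inclL h).toRingHom.toAlgebra.toModule =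
      dedekindPsi N' := by
  have key := finrank_adjoin_tower (modularFunctionFieldBar_le h) (Gin0.jF N)
  have hj : IntermediateField.inclusion (modularFunctionFieldBar_le h) (Gin0.jF N) = Gin0.jF N' :=
    inclL_jF h
  rw [hj, Gin0.finrank_jF, Gin0.finrank_jF] at key
  exact key

/-- `ψ(N) · [FRes A N' : FRes A N] = ψ(N')` for `ℓ ∤ N'`. -/
theorem dedekindPsi_mul_finrank_inclK (h : N ∣ N') (hℓN' : ¬ ℓ ∣ N') (hA : A.LiesOverPrime ℓ) :
    dedekindPsi N * @finrank (FRes A N) (FRes A N') _ _ (inclK A h).toRingHom.toAlgebra.toModule =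
      dedekindPsi N' := by
  have key := finrank_adjoin_tower (full_degeneracyC_le kA h) (Gink.jK A N)
  have hj : IntermediateField.inclusion (full_degeneracyC_le kA h) (Gink.jK A N) = Gink.jK A N' :=
    inclK_jK A h
  rw [hj, Gink.finrank_jK A N hA (not_dvd_of_level_dvd h hℓN'),
    Gink.finrank_jK A N' hA hℓN'] at key
  exact key

/-- **`[FBar N' : FBar N] = [FRes A N' : FRes A N]`** for `N ∣ N'`, `ℓ ∤ N'`. -/
theorem finrank_inclL_eq_finrank_inclK (h : N ∣ N') (hℓN' : ¬ ℓ ∣ N') (hA : A.LiesOverPrime ℓ) :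
    @finrank (FBar N) (FBar N') _ _ (inclL h).toRingHom.toAlgebra.toModule =
      @finrank (FRes A N) (FRes A N') _ _ (inclK A h).toRingHom.toAlgebra.toModule := by
  have h1 := dedekindPsi_mul_finrank_inclL (N := N) (N' := N') h
  have h2 := dedekindPsi_mul_finrank_inclK A h hℓN' hA
  have hpos : 0 < dedekindPsi N := Fermat.Agent.ProgramR.BarField.dedekindPsi_pos N
  exact Nat.eq_of_mul_eq_mul_left hpos (h1.trans h2.symm)

end Level

end Fermat.Agent.S18lib.V
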