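/-
S18lib / V / GaussU / LevelAlg  (helper6, announced shape of helper7)

The level inclusions `FBar N ⊆ FBar N'`, `FRes A N ⊆ FRes A N'` (`N ∣ N'`) of
`V/GaussU/Level2.lean` in INSTANCE shape: `levelAlgebraL h : Algebra (FBar N) (FBar N')`,
`levelAlgebraK A h : Algebra (FRes A N) (FRes A N')` (reducible defs, to be used through
`letI := levelAlgebraK A h; letI := levelModuleK A h`), with the scalar towers over `Q̄` / `k`, the images of the
`j`-functions and of the Hauptmodul elements, finite dimensionality, and the three compatibility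
hypotheses `hO`, `hred`, `hdeg'` of `Norm.mapDomain_le_count_of_tower` for
`D := V.datum N ..`, `G' := V.gaussDatum N' ..`.

No proof here is a `rfl` between elements of function fields of two different levels.
-/
import Mathlib
import Fermat.Agent.S18lib.V.GaussU.Level2
import Fermat.Agent.S18lib.V.GaussU.LevelFin
import Fermat.Agent.S18lib.Haupt.LevelCompat

set_option autoImplicit false
set_option linter.unusedSectionVars false
set_option linter.style.haveILetI false

noncomputable section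

namespace Fermat.Agent.S18lib.V

open ModularCurve IntermediateField Module

variable {N N' : ℕ} [NeZero N] [NeZero N'] (A : ValuationSubring (AlgebraicClosure ℚ))
variable {ℓ : ℕ} [Fact ℓ.Prime]

local notation "Qb" => AlgebraicClosure ℚ
local notation "kA" => IsLocalRing.ResidueField A

/-- `FBar N'` as an algebra over `FBar N`, `N ∣ N'` (use via `letI`). -/
@[reducible] def levelAlgebraL (h : N ∣ N') : Algebra (FBar N) (FBar N') :=
  (inclL h).toRingHom.toAlgebra

/-- `FRes A N'` as an algebra over `FRes A N`, `N ∣ N'` (use via `letI`). -/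
@[reducible] def levelAlgebraK (h : N ∣ N') : Algebra (FRes A N) (FRes A N') :=
  (inclK A h).toRingHom.toAlgebra

/-- shortcut `Module (FBar N) (FBar N')` (use via `letI`, after `levelAlgebraL`). -/
@[reducible] def levelModuleL (h : N ∣ N') : Module (FBar N) (FBar N') :=
  (levelAlgebraL h).toModule

/-- shortcut `Module (FRes A N) (FRes A N')`: with `letI := levelAlgebraK A h` alone, the search
for `Module (FRes A N) (FRes A N')` times out at the default `synthInstance.maxHeartbeats`;
with `letI := levelAlgebraK A h; letI := levelModuleK A h` it is immediate. -/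
@[reducible] def levelModuleK (h : N ∣ N') : Module (FRes A N) (FRes A N') :=
  (levelAlgebraK A h).toModule

theorem algebraMap_levelL (h : N ∣ N') (x : FBar N) :
    @algebraMap (FBar N) (FBar N') _ _ (levelAlgebraL h) x = inclL h x := rfl

theorem algebraMap_levelK (h : N ∣ N') (x : FRes A N) :
    @algebraMap (FRes A N) (FRes A N') _ _ (levelAlgebraK A h) x = inclK A h x := rfl

@[simp] theorem coe_algebraMap_levelL (h : N ∣ N') (x : FBar N) :
    ((@algebraMap (FBar N) (FBar N') _ _ (levelAlgebraL h) x : FBar N') : LaurentSeries Qb) =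
      (x : LaurentSeries Qb) := by
  rw [algebraMap_levelL, coe_inclL]

@[simp] theorem coe_algebraMap_levelK (h : N ∣ N') (x : FRes A N) :
    ((@algebraMap (FRes A N) (FRes A N') _ _ (levelAlgebraK A h) x : FRes A N') :
      LaurentSeries kA) = (x : LaurentSeries kA) := by
  rw [algebraMap_levelK, coe_inclK]

theorem algebraMap_levelL_injective (h : N ∣ N') :
    Function.Injective (@algebraMap (FBar N) (FBar N') _ _ (levelAlgebraL h)) :=
  inclL_injective h

theorem algebraMap_levelK_injective (h : N ∣ N') :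
    Function.Injective (@algebraMap (FRes A N) (FRes A N') _ _ (levelAlgebraK A h)) :=
  inclK_injective A h

/-- `Q̄ → FBar N → FBar N'` is a scalar tower. -/
theorem isScalarTower_levelL (h : N ∣ N') :
    @IsScalarTower Qb (FBar N) (FBar N') _ (levelAlgebraL h).toSMul _ :=
  letI := levelAlgebraL (N := N) (N' := N') h
  IsScalarTower.of_algebraMap_eq fun c => ((inclL h).commutes c).symm

/-- `k → FRes A N → FRes A N'` is a scalar tower. -/
theorem isScalarTower_levelK (h : N ∣ N') :
    @IsScalarTower kA (FRes A N) (FRes A N') _ (levelAlgebraK A h).toSMul _ :=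
  letI := levelAlgebraK (N := N) (N' := N') A h
  IsScalarTower.of_algebraMap_eq fun c => ((inclK A h).commutes c).symm

/-! ### the `j`-functions and the Hauptmodul elements -/

theorem algebraMap_levelL_jF (h : N ∣ N') :
    @algebraMap (FBar N) (FBar N') _ _ (levelAlgebraL h) (Gin0.jF N) = Gin0.jF N' :=
  inclL_jF h

theorem algebraMap_levelK_jK (h : N ∣ N') :
    @algebraMap (FRes A N) (FRes A N') _ _ (levelAlgebraK A h) (Gink.jK A N) = Gink.jK A N' :=
  inclK_jK A h

section Haupt

variable {A}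
variable (hA : A.LiesOverPrime ℓ) (h : N ∣ N') (hℓN : ¬ ℓ ∣ N) (hℓN' : ¬ ℓ ∣ N')

theorem algebraMap_levelK_h2K (hN : 2 ∣ N) (hN' : 2 ∣ N') :
    @algebraMap (FRes A N) (FRes A N') _ _ (levelAlgebraK A h) (Haupt.h2K N hA hℓN hN) =
      Haupt.h2K N' hA hℓN' hN' := Haupt.inclK_h2K hA h hℓN hℓN' hN hN'

theorem algebraMap_levelK_mu4K (hN : 4 ∣ N) (hN' : 4 ∣ N') :
    @algebraMap (FRes A N) (FRes A N') _ _ (levelAlgebraK A h) (Haupt.mu4K N hA hℓN hN) =
      Haupt.mu4K N' hA hℓN' hN' := Haupt.inclK_mu4K hA h hℓN hℓN' hN hN'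

theorem algebraMap_levelK_h3K (hN : 3 ∣ N) (hN' : 3 ∣ N') :
    @algebraMap (FRes A N) (FRes A N') _ _ (levelAlgebraK A h) (Haupt.h3K N hA hℓN hN) =
      Haupt.h3K N' hA hℓN' hN' := Haupt.inclK_h3K hA h hℓN hℓN' hN hN'

theorem algebraMap_levelK_mu9K (hN : 9 ∣ N) (hN' : 9 ∣ N') :
    @algebraMap (FRes A N) (FRes A N') _ _ (levelAlgebraK A h) (Haupt.mu9K N hA hℓN hN) =
      Haupt.mu9K N' hA hℓN' hN' := Haupt.inclK_mu9K hA h hℓN hℓN' hN hN'

theorem algebraMap_levelL_h2L (hN : 2 ∣ N) (hN' : 2 ∣ N') :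
    @algebraMap (FBar N) (FBar N') _ _ (levelAlgebraL h) (Haupt.h2L N hA hℓN hN) =
      Haupt.h2L N' hA hℓN' hN' := Haupt.inclL_h2L hA h hℓN hℓN' hN hN'

theorem algebraMap_levelL_mu4L (hN : 4 ∣ N) (hN' : 4 ∣ N') :
    @algebraMap (FBar N) (FBar N') _ _ (levelAlgebraL h) (Haupt.mu4L N hA hℓN hN) =
      Haupt.mu4L N' hA hℓN' hN' := Haupt.inclL_mu4L hA h hℓN hℓN' hN hN'

theorem algebraMap_levelL_h3L (hN : 3 ∣ N) (hN' : 3 ∣ N') :
    @algebraMap (FBar N) (FBar N') _ _ (levelAlgebraL h) (Haupt.h3L N hA hℓN hN) =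
      Haupt.h3L N' hA hℓN' hN' := Haupt.inclL_h3L hA h hℓN hℓN' hN hN'

theorem algebraMap_levelL_mu9L (hN : 9 ∣ N) (hN' : 9 ∣ N') :
    @algebraMap (FBar N) (FBar N') _ _ (levelAlgebraL h) (Haupt.mu9L N hA hℓN hN) =
      Haupt.mu9L N' hA hℓN' hN' := Haupt.inclL_mu9L hA h hℓN hℓN' hN hN'

end Haupt

/-! ### degrees -/

/-- `[FBar N' : FBar N] = [FRes A N' : FRes A N]` (`hdeg'` of `Norm/Tower.lean`). -/
theorem level_hdeg' (h : N ∣ N') (hℓN' : ¬ ℓ ∣ N') (hA : A.LiesOverPrime ℓ) :
    @finrank (FBar N) (FBar N') _ _ (levelAlgebraL h).toModule =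
      @finrank (FRes A N) (FRes A N') _ _ (levelAlgebraK A h).toModule :=
  finrank_inclL_eq_finrank_inclK A h hℓN' hA

theorem finrank_levelL_pos (h : N ∣ N') :
    0 < @finrank (FBar N) (FBar N') _ _ (levelAlgebraL h).toModule := by
  have h1 := dedekindPsi_mul_finrank_inclL (N := N) (N' := N') h
  have h2 : 0 < dedekindPsi N' := Fermat.Agent.ProgramR.BarField.dedekindPsi_pos N'
  rw [← h1] at h2
  exact Nat.pos_of_mul_pos_left h2

theorem finrank_levelK_pos (h : N ∣ N') (hℓN' : ¬ ℓ ∣ N') (hA : A.LiesOverPrime ℓ) :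
    0 < @finrank (FRes A N) (FRes A N') _ _ (levelAlgebraK A h).toModule := by
  have h1 := dedekindPsi_mul_finrank_inclK A h hℓN' hA
  have h2 : 0 < dedekindPsi N' := Fermat.Agent.ProgramR.BarField.dedekindPsi_pos N'
  rw [← h1] at h2
  exact Nat.pos_of_mul_pos_left h2

/-- `FBar N' / FBar N` is finite. -/
theorem finiteDimensional_levelL (h : N ∣ N') :
    @FiniteDimensional (FBar N) (FBar N') _ _ (levelAlgebraL h).toModule :=
  @Module.finite_of_finrank_pos (FBar N) (FBar N') _ _ (levelAlgebraL h).toModule _ _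
    (finrank_levelL_pos h)

/-- `FRes A N' / FRes A N` is finite (`ℓ ∤ N'`). -/
theorem finiteDimensional_levelK (h : N ∣ N') (hℓN' : ¬ ℓ ∣ N') (hA : A.LiesOverPrime ℓ) :
    @FiniteDimensional (FRes A N) (FRes A N') _ _ (levelAlgebraK A h).toModule :=
  @Module.finite_of_finrank_pos (FRes A N) (FRes A N') _ _ (levelAlgebraK A h).toModule _ _
    (finrank_levelK_pos A h hℓN' hA)

/-! ### compatibility of the data (`hO`, `hred` of `Norm/Tower.lean`) -/

/-- `hO`: `O_N = O_{N'} ∩ FBar N`, for the full datum at level `N` and the Gauss datum at level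
`N'`. -/
theorem level_hO (h : N ∣ N') (hℓN' : ¬ ℓ ∣ N') (hA : A.LiesOverPrime ℓ)
    (hh : ReductionInputsModL A N) (x : FBar N) :
    @algebraMap (FBar N) (FBar N') _ _ (levelAlgebraL h) x ∈ (gaussDatum N' A hℓN' hA).O ↔
      x ∈ (datum N A (not_dvd_of_level_dvd h hℓN') hA hh).O :=
  inclL_mem_gaussDatum_O_iff A h hℓN' hA x

/-- `hred`: the reductions commute with the level inclusions. -/
theorem level_hred (h : N ∣ N') (hℓN' : ¬ ℓ ∣ N') (hA : A.LiesOverPrime ℓ)
    (hh : ReductionInputsModL A N) (x : FBar N) :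
    (gaussDatum N' A hℓN' hA).redF (@algebraMap (FBar N) (FBar N') _ _ (levelAlgebraL h) x) =
      @algebraMap (FRes A N) (FRes A N') _ _ (levelAlgebraK A h)
        ((datum N A (not_dvd_of_level_dvd h hℓN') hA hh).redF x) :=
  gaussDatum_redF_inclL A h hℓN' hA x

/-- the same for the Gauss datum at level `N`. -/
theorem level_hO_gauss (h : N ∣ N') (hℓN' : ¬ ℓ ∣ N') (hA : A.LiesOverPrime ℓ) (x : FBar N) :
    @algebraMap (FBar N) (FBar N') _ _ (levelAlgebraL h) x ∈ (gaussDatum N' A hℓN' hA).O ↔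
      x ∈ (gaussDatum N A (not_dvd_of_level_dvd h hℓN') hA).O :=
  inclL_mem_gaussDatum_O_iff A h hℓN' hA x

theorem level_hred_gauss (h : N ∣ N') (hℓN' : ¬ ℓ ∣ N') (hA : A.LiesOverPrime ℓ) (x : FBar N) :
    (gaussDatum N' A hℓN' hA).redF (@algebraMap (FBar N) (FBar N') _ _ (levelAlgebraL h) x) =
      @algebraMap (FRes A N) (FRes A N') _ _ (levelAlgebraK A h)
        ((gaussDatum N A (not_dvd_of_level_dvd h hℓN') hA).redF x) :=
  gaussDatum_redF_inclL A h hℓN' hA x

end Fermat.Agent.S18lib.V
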