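/-
S18lib / V / GaussU / Level  — SHIM (lead, 2026-11-29)

The original content of this file (helper7, fa4f2e8) proved `coe_inclL`, `coe_inclK`, `coe_inclI`,
... by `rfl` across subtypes of different levels, which makes the unifier/kernel unfold
`modularFunctionFieldBar N'` against `modularFunctionFieldBar N` (deterministic timeout, > 14 GB).
All its declarations now live, with the same names and statements, in the memory-safe drop-in
`Fermat.Agent.S18lib.V.GaussU.Level2` (helper6, 1da7f75).  This file only re-exports it, so that
importing either module is safe and the two can never clash.
-/
import Fermat.Agent.S18lib.V.GaussU.Level2
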