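/-
S18lib / V / GaussU / Norm  (helper7)

Gauss normalisation of a finite family of polynomials over the fraction field of a valuation ring.
-/
import Mathlib

set_option autoImplicit false

noncomputable section

namespace Fermat.Agent.S18lib.V

open Polynomial

/-- **Gauss normalisation.**  A finite family of polynomials over the fraction field of a valuation
ring, not all zero, is a nonzero constant times a family of integral polynomials whose reductions
are not all zero. -/
theorem exists_normalize_poly {L : Type*} [Field L] (A : ValuationSubring L) {ι : Type*}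
    [Fintype ι] (p : ι → L[X]) (hp : ∃ i, p i ≠ 0) :
    ∃ (c : L) (P : ι → A[X]), c ≠ 0 ∧ (∀ i, p i = C c * (P i).map A.subtype) ∧
      ∃ i, (P i).map (IsLocalRing.residue A) ≠ 0 := by
  classical
  obtain ⟨i1, hi1⟩ := hp
  -- the index set of all nonzero coefficients
  set S : Finset (Σ _ : ι, ℕ) := Finset.univ.sigma (fun i => (p i).support) with hS
  have hSne : S.Nonempty := by
    obtain ⟨n, hn⟩ := Polynomial.support_nonempty.mpr hi1
    exact ⟨⟨i1, n⟩, by rw [hS, Finset.mem_sigma]; exact ⟨Finset.mem_univ _, hn⟩⟩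
  obtain ⟨⟨i0, n0⟩, hmem0, hmax⟩ :=
    Finset.exists_max_image S (fun s => A.valuation ((p s.1).coeff s.2)) hSne
  rw [hS, Finset.mem_sigma] at hmem0
  have hc0 : (p i0).coeff n0 ≠ 0 := Polynomial.mem_support_iff.mp hmem0.2
  set c := (p i0).coeff n0 with hc
  have hle : ∀ i n, A.valuation ((p i).coeff n) ≤ A.valuation c := by
    intro i n
    by_cases h0 : (p i).coeff n = 0
    · rw [h0, map_zero]; exact zero_le
    · exact hmax ⟨i, n⟩ (by
        rw [hS, Finset.mem_sigma]
        exact ⟨Finset.mem_univ _, Polynomial.mem_support_iff.mpr h0⟩)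
  have hmemA : ∀ i n, c⁻¹ * (p i).coeff n ∈ A := by
    intro i n
    rw [← ValuationSubring.valuation_le_one_iff, map_mul, map_inv₀]
    have hvc : A.valuation c ≠ 0 := (Valuation.ne_zero_iff _).mpr hc0
    rw [inv_mul_le_iff₀ (zero_lt_iff.mpr hvc), mul_one]
    exact hle i n
  have hlift : ∀ i, ∃ P : A[X], P.map A.subtype = C c⁻¹ * p i := by
    intro i
    have : C c⁻¹ * p i ∈ Polynomial.lifts A.subtype := by
      rw [Polynomial.lifts_iff_coeff_lifts]
      intro n
      rw [Polynomial.coeff_C_mul]
      exact ⟨⟨_, hmemA i n⟩, rfl⟩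
    exact this
  choose P hP using hlift
  refine ⟨c, P, hc0, fun i => ?_, i0, ?_⟩
  · rw [hP i, ← mul_assoc, ← C_mul, mul_inv_cancel₀ hc0, C_1, one_mul]
  · intro h0
    have h1 : ((P i0).coeff n0 : L) = 1 := by
      have := congrArg (fun r => r.coeff n0) (hP i0)
      simp only [Polynomial.coeff_map, Polynomial.coeff_C_mul] at this
      rw [← hc, inv_mul_cancel₀ hc0] at this
      exact this
    have h2 : (P i0).coeff n0 = 1 := Subtype.ext h1
    have h3 := congrArg (fun r => r.coeff n0) h0
    simp only [Polynomial.coeff_map, Polynomial.coeff_zero] at h3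
    rw [h2, map_one] at h3
    exact one_ne_zero h3

/-- single polynomial version -/
theorem exists_normalize_poly_one {L : Type*} [Field L] (A : ValuationSubring L) {q : L[X]}
    (hq : q ≠ 0) :
    ∃ (c : L) (Q : A[X]), c ≠ 0 ∧ q = C c * Q.map A.subtype ∧
      Q.map (IsLocalRing.residue A) ≠ 0 := by
  obtain ⟨c, P, hc, hP, i, hi⟩ := exists_normalize_poly A (fun _ : Unit => q) ⟨(), hq⟩
  exact ⟨c, P (), hc, hP (), by cases i; exact hi⟩

end Fermat.Agent.S18lib.V
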